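import Fermat.Agent.RT.K2b.Gen

/-!
# K-machine, piece K2-e: killing variables in a power series ring

For a set `A` of variables and a ring homomorphism `φ : O →+* k`:

* `rtk2bKill φ A : MvPowerSeries σ O →+* MvPowerSeries σ k` : `X_s ↦ 0` for `s ∈ A`,
  `X_s ↦ X_s` for `s ∉ A`, coefficients through `φ`;
* `rtk2bKill_ker_le` : for `σ` finite and `ker φ ≤ (lam)`, the kernel is contained in the ideal
  generated by `C lam` and the `X_s`, `s ∈ A` (and equal to it if `φ lam = 0`);
* `rtk2b_isPrime_of_kill` : this ideal is prime when `k` is a domain.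
-/

set_option autoImplicit false
set_option linter.style.haveILetI false

namespace Fermat.Agent.RT.K2b

open Function MvPowerSeries

section Kill

variable {σ O k : Type*} [CommRing O] [CommRing k]

/-- `ν` does not involve the variables of `A`. -/
def rtk2bOff (A : Set σ) (ν : σ →₀ ℕ) : Prop := ∀ s ∈ A, ν s = 0

theorem rtk2bOff_zero (A : Set σ) : rtk2bOff A (0 : σ →₀ ℕ) := fun _ _ => rfl

theorem rtk2bOff_add (A : Set σ) (α β : σ →₀ ℕ) :
    rtk2bOff A (α + β) ↔ rtk2bOff A α ∧ rtk2bOff A β := by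
  constructor
  · intro h
    refine ⟨fun s hs => ?_, fun s hs => ?_⟩
    · have := h s hs
      rw [Finsupp.add_apply] at this
      omega
    · have := h s hs
      rw [Finsupp.add_apply] at this
      omega
  · rintro ⟨h1, h2⟩ s hs
    rw [Finsupp.add_apply, h1 s hs, h2 s hs]

open Classical in
/-- The underlying function of `rtk2bKill`. -/
noncomputable def rtk2bKillFun (φ : O →+* k) (A : Set σ) (f : MvPowerSeries σ O) :
    MvPowerSeries σ k :=
  fun ν => if rtk2bOff A ν then φ (coeff ν f) else 0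

open Classical in
theorem rtk2b_coeff_killFun (φ : O →+* k) (A : Set σ) (f : MvPowerSeries σ O) (ν : σ →₀ ℕ) :
    coeff ν (rtk2bKillFun φ A f) = if rtk2bOff A ν then φ (coeff ν f) else 0 := rfl

/-- **Killing the variables in `A`** (and mapping the coefficients by `φ`). -/
noncomputable def rtk2bKill (φ : O →+* k) (A : Set σ) :
    MvPowerSeries σ O →+* MvPowerSeries σ k where
  toFun := rtk2bKillFun φ A
  map_one' := by
    classical
    ext ν
    rw [rtk2b_coeff_killFun, coeff_one, coeff_one]
    by_cases hν : ν = 0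
    · subst hν
      rw [if_pos (rtk2bOff_zero A), if_pos rfl, if_pos rfl, map_one]
    · rw [if_neg hν, if_neg hν, map_zero, ite_self]
  map_mul' f g := by
    classical
    ext ν
    rw [rtk2b_coeff_killFun, coeff_mul, coeff_mul]
    by_cases hν : rtk2bOff A ν
    · rw [if_pos hν, map_sum]
      refine Finset.sum_congr rfl fun p hp => ?_
      rw [Finset.HasAntidiagonal.mem_antidiagonal] at hp
      have h := (rtk2bOff_add A p.1 p.2).mp (hp ▸ hν)
      rw [rtk2b_coeff_killFun, rtk2b_coeff_killFun, if_pos h.1, if_pos h.2, map_mul]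
    · rw [if_neg hν]
      symm
      refine Finset.sum_eq_zero fun p hp => ?_
      rw [Finset.HasAntidiagonal.mem_antidiagonal] at hp
      rw [rtk2b_coeff_killFun, rtk2b_coeff_killFun]
      by_cases h1 : rtk2bOff A p.1
      · have h2 : ¬ rtk2bOff A p.2 := fun h2 => hν (hp ▸ (rtk2bOff_add A p.1 p.2).mpr ⟨h1, h2⟩)
        rw [if_neg h2, mul_zero]
      · rw [if_neg h1, zero_mul]
  map_zero' := by
    classical
    ext ν
    rw [rtk2b_coeff_killFun, map_zero, map_zero, map_zero, ite_self]
  map_add' f g := by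
    classical
    ext ν
    rw [map_add, rtk2b_coeff_killFun, rtk2b_coeff_killFun, rtk2b_coeff_killFun, map_add, map_add]
    split_ifs
    · rfl
    · rw [add_zero]

open Classical in
theorem rtk2b_coeff_kill (φ : O →+* k) (A : Set σ) (f : MvPowerSeries σ O) (ν : σ →₀ ℕ) :
    coeff ν (rtk2bKill φ A f) = if rtk2bOff A ν then φ (coeff ν f) else 0 := rfl

theorem rtk2bKill_C (φ : O →+* k) (A : Set σ) (c : O) :
    rtk2bKill φ A (C c) = C (φ c) := by
  classical
  ext ν
  rw [rtk2b_coeff_kill, coeff_C, coeff_C]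
  by_cases hν : ν = 0
  · subst hν
    rw [if_pos (rtk2bOff_zero A), if_pos rfl, if_pos rfl]
  · rw [if_neg hν, if_neg hν, map_zero, ite_self]

theorem rtk2bKill_X_of_mem (φ : O →+* k) (A : Set σ) {s : σ} (hs : s ∈ A) :
    rtk2bKill φ A (X s) = 0 := by
  classical
  ext ν
  rw [rtk2b_coeff_kill, coeff_X, map_zero]
  by_cases hν : ν = Finsupp.single s 1
  · subst hν
    rw [if_neg]
    intro h
    have := h s hs
    simp at this
  · rw [if_neg hν, map_zero, ite_self]

theorem rtk2bKill_X_of_not_mem (φ : O →+* k) (A : Set σ) {s : σ} (hs : s ∉ A) :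
    rtk2bKill φ A (X s) = X s := by
  classical
  ext ν
  rw [rtk2b_coeff_kill, coeff_X, coeff_X]
  by_cases hν : ν = Finsupp.single s 1
  · subst hν
    rw [if_pos rfl, if_pos rfl, map_one, if_pos]
    intro t ht
    rw [Finsupp.single_apply, if_neg]
    rintro rfl
    exact hs ht
  · rw [if_neg hν, if_neg hν, map_zero, ite_self]

theorem rtk2b_mem_ker_kill (φ : O →+* k) (A : Set σ) (f : MvPowerSeries σ O) :
    f ∈ RingHom.ker (rtk2bKill φ A) ↔ ∀ ν, rtk2bOff A ν → φ (coeff ν f) = 0 := by
  classical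
  rw [RingHom.mem_ker]
  constructor
  · intro h ν hν
    have := congrArg (coeff ν) h
    rwa [rtk2b_coeff_kill, if_pos hν, map_zero] at this
  · intro h
    ext ν
    rw [rtk2b_coeff_kill, map_zero]
    split_ifs with hν
    · exact h ν hν
    · rfl

/-- The kernel of `rtk2bKill φ A` is generated by `C lam` and the `X s`, `s ∈ A`
(`σ` finite, `ker φ ≤ (lam)`). -/
theorem rtk2bKill_ker_le [Finite σ] (φ : O →+* k) (A : Set σ) (lam : O)
    (hlam : RingHom.ker φ ≤ Ideal.span {lam}) :
    RingHom.ker (rtk2bKill φ A) ≤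
      Ideal.span {(C lam : MvPowerSeries σ O)} ⊔
        Ideal.span ((X : σ → MvPowerSeries σ O) '' A) := by
  classical
  haveI : Fintype σ := Fintype.ofFinite σ
  intro f hf
  rw [rtk2b_mem_ker_kill] at hf
  -- the part of `f` free of the variables of `A`: a multiple of `C lam`
  have h1 : ∀ ν, ∃ c : O, rtk2bOff A ν → coeff ν f = lam * c := by
    intro ν
    by_cases hν : rtk2bOff A ν
    · have := hlam (RingHom.mem_ker.mpr (hf ν hν))
      rw [Ideal.mem_span_singleton] at this
      obtain ⟨c, hc⟩ := this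
      exact ⟨c, fun _ => hc⟩
    · exact ⟨0, fun h => absurd h hν⟩
  choose c hc using h1
  let g0 : MvPowerSeries σ O := fun ν => if rtk2bOff A ν then c ν else 0
  have hg0 : ∀ ν, coeff ν g0 = if rtk2bOff A ν then c ν else 0 := fun ν => rfl
  -- the variable of `A` picked for a monomial involving `A`
  let pk : (σ →₀ ℕ) → σ → Prop := fun ν s =>
    ∃ h : ∃ t, t ∈ A ∧ ν t ≠ 0, h.choose = s
  let hpart : σ → MvPowerSeries σ O := fun s ν => if pk ν s then coeff ν f else 0
  have hcoeff : ∀ s ν, coeff ν (hpart s) = if pk ν s then coeff ν f else 0 := fun s ν => rfl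
  have hsum : f = C lam * g0 + ∑ s, hpart s := by
    ext ν
    rw [map_add, coeff_C_mul, hg0, map_sum]
    simp only [hcoeff]
    by_cases hν : rtk2bOff A ν
    · have hpk : ∀ s, ¬ pk ν s := by
        rintro s ⟨⟨t, ht, hνt⟩, -⟩
        exact hνt (hν t ht)
      simp only [hpk, if_false, Finset.sum_const_zero, add_zero, if_pos hν]
      exact hc ν hν
    · have hex : ∃ t, t ∈ A ∧ ν t ≠ 0 := by
        by_contra hcon
        apply hν
        intro t ht
        by_contra h0
        exact hcon ⟨t, ht, h0⟩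
      have hpk : ∀ s, pk ν s ↔ hex.choose = s := by
        intro s
        constructor
        · rintro ⟨h, rfl⟩
          rfl
        · intro h
          exact ⟨hex, h⟩
      simp only [hpk, if_neg hν, mul_zero, zero_add]
      rw [Finset.sum_ite_eq]
      simp
  rw [hsum]
  refine Ideal.add_mem _ (Ideal.mem_sup_left (Ideal.mul_mem_right _ _
    (Ideal.mem_span_singleton_self _))) (Ideal.sum_mem _ fun s _ => ?_)
  by_cases hsA : s ∈ A
  · have hdvd : (X s : MvPowerSeries σ O) ∣ hpart s := by
      rw [X_dvd_iff]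
      intro m hm
      rw [hcoeff, if_neg]
      rintro ⟨h, hs⟩
      have := h.choose_spec.2
      rw [hs] at this
      exact this hm
    obtain ⟨g, hg⟩ := hdvd
    rw [hg]
    exact Ideal.mem_sup_right (Ideal.mul_mem_right _ _ (Ideal.subset_span ⟨s, hsA, rfl⟩))
  · have : hpart s = 0 := by
      ext ν
      rw [hcoeff, map_zero, if_neg]
      rintro ⟨h, hs⟩
      have := h.choose_spec.1
      rw [hs] at this
      exact hsA this
    rw [this]
    exact Ideal.zero_mem _

theorem rtk2bKill_le_ker (φ : O →+* k) (A : Set σ) (lam : O) (hlam : φ lam = 0) :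
    Ideal.span {(C lam : MvPowerSeries σ O)} ⊔
        Ideal.span ((X : σ → MvPowerSeries σ O) '' A) ≤ RingHom.ker (rtk2bKill φ A) := by
  refine sup_le ?_ ?_
  · rw [Ideal.span_le]
    intro f hf
    rw [Set.mem_singleton_iff] at hf
    rw [hf, SetLike.mem_coe, RingHom.mem_ker, rtk2bKill_C, hlam, map_zero]
  · rw [Ideal.span_le]
    rintro _ ⟨s, hs, rfl⟩
    exact rtk2bKill_X_of_mem φ A hs

/-- The ideal `(C lam, X s : s ∈ A)` is the kernel of `rtk2bKill φ A`. -/
theorem rtk2bKill_ker_eq [Finite σ] (φ : O →+* k) (A : Set σ) (lam : O)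
    (hlam : RingHom.ker φ = Ideal.span {lam}) :
    RingHom.ker (rtk2bKill φ A) =
      Ideal.span {(C lam : MvPowerSeries σ O)} ⊔
        Ideal.span ((X : σ → MvPowerSeries σ O) '' A) :=
  le_antisymm (rtk2bKill_ker_le φ A lam hlam.le)
    (rtk2bKill_le_ker φ A lam (by
      have : lam ∈ RingHom.ker φ := hlam ▸ Ideal.mem_span_singleton_self lam
      exact this))

/-- `(C lam, X s : s ∈ A)` is a prime ideal of `O⟦σ⟧` when `(lam)` is a prime ideal of `O`. -/
theorem rtk2b_isPrime_span [Finite σ] (A : Set σ) (lam : O)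
    (hprime : (Ideal.span {lam}).IsPrime) :
    (Ideal.span {(C lam : MvPowerSeries σ O)} ⊔
        Ideal.span ((X : σ → MvPowerSeries σ O) '' A)).IsPrime := by
  have hker : RingHom.ker (Ideal.Quotient.mk (Ideal.span {lam})) = Ideal.span {lam} :=
    Ideal.mk_ker
  rw [← rtk2bKill_ker_eq (Ideal.Quotient.mk (Ideal.span {lam})) A lam hker]
  haveI : IsDomain (O ⧸ Ideal.span {lam}) := Ideal.Quotient.isDomain _
  haveI : IsDomain (MvPowerSeries σ (O ⧸ Ideal.span {lam})) := NoZeroDivisors.to_isDomain _
  exact RingHom.ker_isPrime _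

end Kill

end Fermat.Agent.RT.K2b
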