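import Fermat.Agent.RT.K2.Cramer
import Fermat.Agent.RT.K2b.Kill

/-!
# K-machine, piece K2-e: the prime `𝔮_ur` and the Cramer elements

For helper27's presentation (`RT/K2/Defs.lean`):

* `rtk2b_Qur_eq_ker`       : `rtk2Qur ι τ lam` is the kernel of "kill `a_i, b_i, c_i`, reduce
                              mod `lam`";
* `rtk2b_Qur_isPrime`      : `rtk2Qur ι τ lam` is a prime ideal (`(lam)` prime in `O`);
* `rtk2b_cramer_not_mem`   : `rtk2Cramer q i ∉ rtk2Qur ι τ lam` (`q i ≡ 1 mod lam`, `2 ∉ (lam)`);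
* `rtk2b_cramer_uniform`   : one `D ∉ 𝔮_ur` and one `e` with `λ^e · D · Iur ⊆ I_1`;
* `rtk2b_Qur_map_isPrime`, `rtk2b_cramer_quot` : the same in `R¹_∞ = P ⧸ I_1`, in the shape of
  the hypotheses `𝔮`, `h𝔮`, `hCr` of `Fermat.Agent.RT.K4.rtk4_out_T0`.
-/

set_option autoImplicit false
set_option linter.style.haveILetI false

namespace Fermat.Agent.RT.K2b

open Function MvPowerSeries Fermat.Agent.RT.K2

section

variable {O : Type*} [CommRing O] {ι τ : Type*}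

/-- The set of the variables `a_i, b_i, c_i`. -/
def rtk2bUrSet (ι τ : Type*) : Set (Rtk2Var ι τ) :=
  {s | ∃ (i : ι) (k : Fin 6), k.val < 3 ∧ s = rtk2ix i k}

theorem rtk2b_range_genUr :
    Set.range (rtk2genUr : ι × Fin 3 → Rtk2P O ι τ) =
      (X : Rtk2Var ι τ → Rtk2P O ι τ) '' rtk2bUrSet ι τ := by
  ext f
  constructor
  · rintro ⟨⟨i, k⟩, rfl⟩
    fin_cases k
    · exact ⟨rtk2ix i 0, ⟨i, 0, by decide, rfl⟩, rfl⟩
    · exact ⟨rtk2ix i 1, ⟨i, 1, by decide, rfl⟩, rfl⟩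
    · exact ⟨rtk2ix i 2, ⟨i, 2, by decide, rfl⟩, rfl⟩
  · rintro ⟨_, ⟨i, k, hk, rfl⟩, rfl⟩
    fin_cases k
    · exact ⟨(i, 0), rfl⟩
    · exact ⟨(i, 1), rfl⟩
    · exact ⟨(i, 2), rfl⟩
    · exact absurd hk (by decide)
    · exact absurd hk (by decide)
    · exact absurd hk (by decide)

theorem rtk2b_Qur_eq (lam : O) :
    rtk2Qur ι τ lam = Ideal.span {(C lam : Rtk2P O ι τ)} ⊔
      Ideal.span ((X : Rtk2Var ι τ → Rtk2P O ι τ) '' rtk2bUrSet ι τ) := by
  unfold rtk2Qur rtk2Iur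
  rw [rtk2b_range_genUr]

theorem rtk2b_ix_not_mem (i : ι) (k : Fin 6) (hk : 3 ≤ k.val) :
    (rtk2ix i k : Rtk2Var ι τ) ∉ rtk2bUrSet ι τ := by
  rintro ⟨j, l, hl, h⟩
  have h' : (i, k) = (j, l) := Sum.inl_injective h
  have : k = l := (Prod.ext_iff.mp h').2
  omega

/-- `ν = X² + YZ ≠ 0` in a power series ring over a nontrivial ring. -/
theorem rtk2b_nu_ne_zero {k : Type*} [CommRing k] [Nontrivial k] (i : ι) :
    (X (rtk2ix i 3) : MvPowerSeries (Rtk2Var ι τ) k) ^ 2 + X (rtk2ix i 4) * X (rtk2ix i 5) ≠ 0 := by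
  classical
  intro h
  have h1 := congrArg (coeff (Finsupp.single (rtk2ix i 4 : Rtk2Var ι τ) 1 +
    Finsupp.single (rtk2ix i 5 : Rtk2Var ι τ) 1)) h
  rw [map_add, map_zero, pow_two, X_def, X_def, X_def, monomial_mul_monomial,
    monomial_mul_monomial, coeff_monomial, coeff_monomial, if_pos rfl, if_neg, zero_add,
    mul_one] at h1
  · exact one_ne_zero h1
  · intro h2
    have h3 := DFunLike.congr_fun h2 (rtk2ix i 4 : Rtk2Var ι τ)
    have e43 : (rtk2ix i 4 : Rtk2Var ι τ) ≠ rtk2ix i 3 := by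
      intro h; have := Sum.inl_injective h; simp at this
    have e45 : (rtk2ix i 4 : Rtk2Var ι τ) ≠ rtk2ix i 5 := by
      intro h; have := Sum.inl_injective h; simp at this
    simp [e43.symm, e45.symm] at h3

variable [Finite ι] [Finite τ]

/-- `𝔮_ur` is the kernel of "kill `a_i, b_i, c_i` and reduce modulo `lam`". -/
theorem rtk2b_Qur_eq_ker (lam : O) :
    rtk2Qur ι τ lam =
      RingHom.ker (rtk2bKill (Ideal.Quotient.mk (Ideal.span {lam})) (rtk2bUrSet ι τ)) := by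
  rw [rtk2b_Qur_eq, rtk2bKill_ker_eq _ _ lam Ideal.mk_ker]

/-- **`𝔮_ur` is prime.** -/
theorem rtk2b_Qur_isPrime (lam : O) (hprime : (Ideal.span {lam}).IsPrime) :
    (rtk2Qur ι τ lam).IsPrime := by
  rw [rtk2b_Qur_eq]
  exact rtk2b_isPrime_span _ lam hprime

/-- **The Cramer element is not in `𝔮_ur`.** -/
theorem rtk2b_cramer_not_mem (lam : O) (hprime : (Ideal.span {lam}).IsPrime)
    (h2 : (2 : O) ∉ Ideal.span {lam}) (q : ι → O) (i : ι) (hq : ∃ r, q i = 1 + lam * r) :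
    rtk2Cramer q i ∉ rtk2Qur ι τ lam := by
  rw [rtk2b_Qur_eq_ker, RingHom.mem_ker]
  haveI : IsDomain (O ⧸ Ideal.span {lam}) := Ideal.Quotient.isDomain _
  haveI : IsDomain (MvPowerSeries (Rtk2Var ι τ) (O ⧸ Ideal.span {lam})) :=
    NoZeroDivisors.to_isDomain _
  set K := rtk2bKill (Ideal.Quotient.mk (Ideal.span {lam})) (rtk2bUrSet ι τ) with hK
  have hX : K (rtk2X i) = X (rtk2ix i 3) :=
    rtk2bKill_X_of_not_mem _ _ (rtk2b_ix_not_mem i 3 (by decide))
  have hY : K (rtk2Y i) = X (rtk2ix i 4) :=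
    rtk2bKill_X_of_not_mem _ _ (rtk2b_ix_not_mem i 4 (by decide))
  have hZ : K (rtk2Z i) = X (rtk2ix i 5) :=
    rtk2bKill_X_of_not_mem _ _ (rtk2b_ix_not_mem i 5 (by decide))
  have hq1 : K (C (q i)) = 1 := by
    obtain ⟨r, hr⟩ := hq
    rw [hK, rtk2bKill_C, hr, map_add, map_one, map_mul,
      Ideal.Quotient.eq_zero_iff_mem.mpr (Ideal.mem_span_singleton_self lam), zero_mul,
      add_zero, map_one]
  have hν : K (rtk2nu i) = X (rtk2ix i 3) ^ 2 + X (rtk2ix i 4) * X (rtk2ix i 5) := by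
    unfold rtk2nu
    rw [map_add, map_pow, map_mul, hX, hY, hZ]
  have hcr : K (rtk2Cramer q i) =
      -16 * (X (rtk2ix i 3) ^ 2 + X (rtk2ix i 4) * X (rtk2ix i 5)) *
        (1 + (X (rtk2ix i 3) ^ 2 + X (rtk2ix i 4) * X (rtk2ix i 5)) + 2 * X (rtk2ix i 3)) := by
    unfold rtk2Cramer rtk2A
    simp only [map_mul, map_sub, map_add, map_pow, map_one, map_ofNat, hq1, hν, hX]
    ring
  rw [hcr]
  have h16 : (16 : MvPowerSeries (Rtk2Var ι τ) (O ⧸ Ideal.span {lam})) ≠ 0 := by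
    have h2' : (2 : MvPowerSeries (Rtk2Var ι τ) (O ⧸ Ideal.span {lam})) ≠ 0 := by
      intro h
      have h3 := congrArg constantCoeff h
      rw [map_ofNat, map_zero] at h3
      apply h2
      rw [← Ideal.Quotient.eq_zero_iff_mem, map_ofNat]
      exact h3
    have : (16 : MvPowerSeries (Rtk2Var ι τ) (O ⧸ Ideal.span {lam})) = 2 ^ 4 := by norm_num
    rw [this]
    exact pow_ne_zero 4 h2'
  have hA : (1 + (X (rtk2ix i 3) ^ 2 + X (rtk2ix i 4) * X (rtk2ix i 5)) + 2 * X (rtk2ix i 3) :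
      MvPowerSeries (Rtk2Var ι τ) (O ⧸ Ideal.span {lam})) ≠ 0 := by
    intro h
    have h3 := congrArg constantCoeff h
    simp only [map_add, map_mul, map_pow, map_one, constantCoeff_X, map_zero, map_ofNat] at h3
    norm_num at h3
  exact mul_ne_zero (mul_ne_zero (neg_ne_zero.mpr h16) (rtk2b_nu_ne_zero i)) hA

/-- **Uniform Cramer.**  One element `D ∉ 𝔮_ur` and one exponent `e` with
`λ^e · D · Iur ⊆ I_1` (`1 − q_i` divides a power of `λ` for every `i`). -/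
theorem rtk2b_cramer_uniform (lam : O) (hprime : (Ideal.span {lam}).IsPrime)
    (h2 : (2 : O) ∉ Ideal.span {lam}) (q : ι → O) (hq : ∀ i, ∃ r, q i = 1 + lam * r)
    (hq' : ∀ i, ∃ (e : ℕ) (u : O), lam ^ e = (1 - q i) * u) :
    ∃ (e : ℕ) (D : Rtk2P O ι τ), D ∉ rtk2Qur ι τ lam ∧
      ∀ x ∈ rtk2Iur O ι τ, C lam ^ e * D * x ∈ rtk2Ione τ q := by
  classical
  haveI : Fintype ι := Fintype.ofFinite ι
  choose e u he using hq'
  have hQ := rtk2b_Qur_isPrime (ι := ι) (τ := τ) lam hprime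
  refine ⟨∑ i, e i, ∏ i, rtk2Cramer q i, ?_, ?_⟩
  · intro h
    obtain ⟨i, -, hi⟩ := (Ideal.IsPrime.prod_mem_iff (hp := hQ)).mp h
    exact rtk2b_cramer_not_mem lam hprime h2 q i (hq i) hi
  · intro x hx
    unfold rtk2Iur at hx
    induction hx using Submodule.span_induction with
    | mem y hy =>
      obtain ⟨⟨i, k⟩, rfl⟩ := hy
      have hle : e i ≤ ∑ j, e j := Finset.single_le_sum (fun _ _ => Nat.zero_le _)
        (Finset.mem_univ i)
      have h1 : (C lam : Rtk2P O ι τ) ^ (∑ j, e j) =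
          C lam ^ (∑ j, e j - e i) * ((1 - C (q i)) * C (u i)) := by
        have : (C lam : Rtk2P O ι τ) ^ e i = (1 - C (q i)) * C (u i) := by
          rw [← map_pow, he i, map_mul, map_sub, map_one]
        rw [← this, ← pow_add, Nat.sub_add_cancel hle]
      have h2 : (∏ j, rtk2Cramer q j : Rtk2P O ι τ) =
          rtk2Cramer q i * ∏ j ∈ Finset.univ.erase i, rtk2Cramer q j :=
        (Finset.mul_prod_erase Finset.univ (fun j => (rtk2Cramer q j : Rtk2P O ι τ))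
          (Finset.mem_univ i)).symm
      have h3 : (C lam : Rtk2P O ι τ) ^ (∑ j, e j) * (∏ j, rtk2Cramer q j) *
          rtk2genUr (i, k) =
          (C lam ^ (∑ j, e j - e i) * C (u i) *
            ∏ j ∈ Finset.univ.erase i, rtk2Cramer q j) *
          ((1 - C (q i)) * rtk2Cramer q i * rtk2genUr (i, k)) := by
        rw [h1, h2]
        ring
      rw [h3]
      exact Ideal.mul_mem_left _ _ (rtk2_cramer q i k)
    | zero =>
      rw [mul_zero]
      exact Ideal.zero_mem _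
    | add y z _ _ hy hz =>
      rw [mul_add]
      exact Ideal.add_mem _ hy hz
    | smul c y _ hy =>
      rw [smul_eq_mul, mul_left_comm]
      exact Ideal.mul_mem_left _ _ hy

/-- `𝔮_ur` is a prime of `R¹_∞ = P ⧸ I_1`. -/
theorem rtk2b_Qur_map_isPrime (lam : O) (hprime : (Ideal.span {lam}).IsPrime) (q : ι → O) :
    ((rtk2Qur ι τ lam).map (Ideal.Quotient.mk (rtk2Ione τ q))).IsPrime := by
  haveI := rtk2b_Qur_isPrime (ι := ι) (τ := τ) lam hprime
  refine Ideal.map_isPrime_of_surjective Ideal.Quotient.mk_surjective ?_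
  rw [Ideal.mk_ker]
  exact (rtk2_Ione_le_Iur q).trans le_sup_right

omit [Finite ι] [Finite τ] in
theorem rtk2b_mem_Qur_of_mk_mem (lam : O) (q : ι → O) (f : Rtk2P O ι τ)
    (h : Ideal.Quotient.mk (rtk2Ione τ q) f ∈
      (rtk2Qur ι τ lam).map (Ideal.Quotient.mk (rtk2Ione τ q))) : f ∈ rtk2Qur ι τ lam := by
  have h1 : f ∈ ((rtk2Qur ι τ lam).map (Ideal.Quotient.mk (rtk2Ione τ q))).comap
      (Ideal.Quotient.mk (rtk2Ione τ q)) := h
  have hle : rtk2Ione τ q ≤ rtk2Qur ι τ lam := (rtk2_Ione_le_Iur q).trans le_sup_right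
  rw [Ideal.comap_map_of_surjective' _ Ideal.Quotient.mk_surjective, Ideal.mk_ker,
    sup_eq_left.mpr hle] at h1
  exact h1

/-- **The hypotheses `h𝔮`, `hCr` of `rtk4_out_T0`** for `R1 = R¹_∞ = P ⧸ I_1`, `R0 = P`,
`ι = Ideal.Quotient.mk I_1`, `Iur = (a_i, b_i, c_i)`, `𝔮 = 𝔮_ur R¹_∞`. -/
theorem rtk2b_cramer_quot (lam : O) (hprime : (Ideal.span {lam}).IsPrime)
    (h2 : (2 : O) ∉ Ideal.span {lam}) (q : ι → O) (hq : ∀ i, ∃ r, q i = 1 + lam * r)
    (hq' : ∀ i, ∃ (e : ℕ) (u : O), lam ^ e = (1 - q i) * u) :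
    algebraMap O (Rtk2Rone τ q) lam ∈
        (rtk2Qur ι τ lam).map (Ideal.Quotient.mk (rtk2Ione τ q)) ∧
    ∀ x ∈ rtk2Iur O ι τ, ∃ (e : ℕ) (D : Rtk2Rone τ q),
      D ∉ (rtk2Qur ι τ lam).map (Ideal.Quotient.mk (rtk2Ione τ q)) ∧
      algebraMap O (Rtk2Rone τ q) lam ^ e * D * Ideal.Quotient.mk (rtk2Ione τ q) x = 0 := by
  have halg : algebraMap O (Rtk2Rone τ q) lam = Ideal.Quotient.mk (rtk2Ione τ q) (C lam) := rfl
  refine ⟨?_, ?_⟩
  · rw [halg]
    exact Ideal.mem_map_of_mem _ (Ideal.mem_sup_left (Ideal.mem_span_singleton_self _))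
  · obtain ⟨e, D, hD, h⟩ := rtk2b_cramer_uniform (τ := τ) lam hprime h2 q hq hq'
    intro x hx
    refine ⟨e, Ideal.Quotient.mk _ D, fun hmem => hD (rtk2b_mem_Qur_of_mk_mem lam q D hmem), ?_⟩
    rw [halg, ← map_pow, ← map_mul, ← map_mul]
    exact Ideal.Quotient.eq_zero_iff_mem.mpr (h x hx)

end

end Fermat.Agent.RT.K2b
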