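import Fermat.Agent.RT.K2b.Gen

/-!
# K-machine, piece K2-b: the dimension bound for the framed local rings of type `χ`

`P = O⟦σ⟧`, with families of variables `a_i, b_i, c_i, X_i, Y_i, Z_i` (`i : ι`) and `x_t`
(`t : τ`) exhausting `σ`.  For ANY ideal `I` of `P` containing the relations

  `a_i² + b_i c_i − δ_i²`,  `b_i X_i − a_i Y_i`,  `c_i X_i − a_i Z_i`,  `c_i Y_i − b_i Z_i`

(`δ_i ∈ 𝔪_O`, `2 ∈ O^×`), the elements `λ`, `X_i + a_i`, `Y_i + c_i`, `Z_i − b_i`, `x_t` form a
system of parameters of `P ⧸ I`: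

* `rtk2b_prime_core` : a prime containing the relations and the parameters at `i` contains
  `a_i, b_i, c_i, X_i, Y_i, Z_i`;
* `rtk2b_dim_le`     : `dim P ⧸ I ≤ 1 + 3|ι| + |τ|`;
* `rtk2b_dim_le_powerSeries` : for `O` a discrete valuation ring,
  `dim P ⧸ I ≤ dim O⟦w₁, …, w_m⟧` as soon as `3|ι| + |τ| ≤ m`.
-/

set_option autoImplicit false
set_option linter.style.haveILetI false

namespace Fermat.Agent.RT.K2b

open Function

/-- In a domain where `2 ≠ 0`: the relations of type `χ` (with `δ = 0`) and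
`X = −a`, `Y = −c`, `Z = b` force `a = b = c = 0`. -/
theorem rtk2b_domain_core {A : Type*} [CommRing A] [IsDomain A] (h2 : (2 : A) ≠ 0)
    (a b c X Y Z : A) (h1 : a ^ 2 + b * c = 0) (hm1 : b * X - a * Y = 0)
    (hm2 : c * X - a * Z = 0) (hm3 : c * Y - b * Z = 0)
    (hX : X + a = 0) (hY : Y + c = 0) (hZ : Z - b = 0) :
    a = 0 ∧ b = 0 ∧ c = 0 ∧ X = 0 ∧ Y = 0 ∧ Z = 0 := by
  have e1 : a * (c - b) = 0 := by linear_combination hm1 - b * hX + a * hY
  have e2 : a * (b + c) = 0 := by linear_combination -hm2 + c * hX - a * hZ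
  have e3 : b ^ 2 + c ^ 2 = 0 := by linear_combination -hm3 + c * hY - b * hZ
  have ha : a = 0 := by
    by_contra ha
    have h3 : c - b = 0 := (mul_eq_zero.mp e1).resolve_left ha
    have h4 : b + c = 0 := (mul_eq_zero.mp e2).resolve_left ha
    have h5 : (2 : A) * c = 0 := by linear_combination h3 + h4
    have hc : c = 0 := (mul_eq_zero.mp h5).resolve_left h2
    have hb : b = 0 := by linear_combination h4 - hc
    have h6 : a ^ 2 = 0 := by rw [hb, hc] at h1; simpa using h1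
    exact ha (pow_eq_zero_iff (two_ne_zero) |>.mp h6)
  have hbc : b * c = 0 := by rw [ha] at h1; simpa using h1
  have hb : b = 0 := by
    rcases mul_eq_zero.mp hbc with h | h
    · exact h
    · rw [h] at e3
      have : b ^ 2 = 0 := by simpa using e3
      exact pow_eq_zero_iff (two_ne_zero) |>.mp this
  have hc : c = 0 := by
    rw [hb] at e3
    have : c ^ 2 = 0 := by simpa using e3
    exact pow_eq_zero_iff (two_ne_zero) |>.mp this
  refine ⟨ha, hb, hc, ?_, ?_, ?_⟩
  · linear_combination hX - ha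
  · linear_combination hY - hc
  · linear_combination hZ + hb

/-- A prime containing the relations of type `χ`, `δ`, and the parameters `X + a`, `Y + c`,
`Z − b` contains `a, b, c, X, Y, Z` (`2 ∉ 𝔭`). -/
theorem rtk2b_prime_core {A : Type*} [CommRing A] (𝔭 : Ideal A) [𝔭.IsPrime] (h2 : (2 : A) ∉ 𝔭)
    (a b c X Y Z δ : A) (hδ : δ ∈ 𝔭) (h1 : a ^ 2 + b * c - δ ^ 2 ∈ 𝔭)
    (hm1 : b * X - a * Y ∈ 𝔭) (hm2 : c * X - a * Z ∈ 𝔭) (hm3 : c * Y - b * Z ∈ 𝔭)
    (hX : X + a ∈ 𝔭) (hY : Y + c ∈ 𝔭) (hZ : Z - b ∈ 𝔭) :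
    a ∈ 𝔭 ∧ b ∈ 𝔭 ∧ c ∈ 𝔭 ∧ X ∈ 𝔭 ∧ Y ∈ 𝔭 ∧ Z ∈ 𝔭 := by
  simp only [← Ideal.Quotient.eq_zero_iff_mem] at *
  have h2' : (2 : A ⧸ 𝔭) ≠ 0 := by
    intro h
    apply h2
    rw [map_ofNat]
    exact h
  have h1' : (Ideal.Quotient.mk 𝔭 a) ^ 2 + Ideal.Quotient.mk 𝔭 b * Ideal.Quotient.mk 𝔭 c = 0 := by
    have := h1
    rw [map_sub, map_add, map_pow, map_mul, map_pow, hδ] at this
    simpa using this
  exact rtk2b_domain_core h2' _ _ _ _ _ _ h1'
    (by rw [← map_mul, ← map_mul, ← map_sub]; exact hm1)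
    (by rw [← map_mul, ← map_mul, ← map_sub]; exact hm2)
    (by rw [← map_mul, ← map_mul, ← map_sub]; exact hm3)
    (by rw [← map_add]; exact hX) (by rw [← map_add]; exact hY) (by rw [← map_sub]; exact hZ)

section Dim

variable {O : Type*} [CommRing O] [IsLocalRing O] [IsNoetherianRing O]
  {σ ι τ : Type*} [Finite σ] [Fintype ι] [Fintype τ]

open MvPowerSeries in
/-- **K2-b.**  `dim O⟦σ⟧ ⧸ I ≤ 1 + 3|ι| + |τ|` for every ideal `I` containing the relations of
type `χ` (`𝔪_O = (λ)`, `2 ∈ O^×`, `δ_i ∈ 𝔪_O`). -/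
theorem rtk2b_dim_le (lam : O) (hlam : IsLocalRing.maximalIdeal O = Ideal.span {lam})
    (h2 : IsUnit (2 : O))
    (va vb vc vX vY vZ : ι → σ) (vx : τ → σ)
    (hcover : ∀ s : σ, (∃ i, s = va i ∨ s = vb i ∨ s = vc i ∨ s = vX i ∨ s = vY i ∨ s = vZ i) ∨
      ∃ t, s = vx t)
    (δ : ι → O) (hδ : ∀ i, δ i ∈ IsLocalRing.maximalIdeal O)
    (I : Ideal (MvPowerSeries σ O))
    (h1 : ∀ i, (X (va i) : MvPowerSeries σ O) ^ 2 + X (vb i) * X (vc i) - (C (δ i)) ^ 2 ∈ I)
    (hm1 : ∀ i, (X (vb i) : MvPowerSeries σ O) * X (vX i) - X (va i) * X (vY i) ∈ I)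
    (hm2 : ∀ i, (X (vc i) : MvPowerSeries σ O) * X (vX i) - X (va i) * X (vZ i) ∈ I)
    (hm3 : ∀ i, (X (vc i) : MvPowerSeries σ O) * X (vY i) - X (vb i) * X (vZ i) ∈ I) :
    ringKrullDim (MvPowerSeries σ O ⧸ I) ≤ ((1 + 3 * Fintype.card ι + Fintype.card τ : ℕ) :
      WithBot ℕ∞) := by
  classical
  -- the parameters
  let pX : ι → MvPowerSeries σ O := fun i => X (vX i) + X (va i)
  let pY : ι → MvPowerSeries σ O := fun i => X (vY i) + X (vc i)
  let pZ : ι → MvPowerSeries σ O := fun i => X (vZ i) - X (vb i)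
  let px : τ → MvPowerSeries σ O := fun t => X (vx t)
  let T : Finset (MvPowerSeries σ O) :=
    insert (C lam) (Finset.univ.image pX ∪ Finset.univ.image pY ∪ Finset.univ.image pZ ∪
      Finset.univ.image px)
  have hTcard : T.card ≤ 1 + 3 * Fintype.card ι + Fintype.card τ := by
    refine (Finset.card_insert_le _ _).trans ?_
    have h3 : (Finset.univ.image pX ∪ Finset.univ.image pY ∪ Finset.univ.image pZ ∪
        Finset.univ.image px).card ≤ 3 * Fintype.card ι + Fintype.card τ := by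
      refine (Finset.card_union_le _ _).trans ?_
      refine add_le_add ?_ (Finset.card_image_le.trans (by simp))
      refine (Finset.card_union_le _ _).trans ?_
      have hι : ∀ f : ι → MvPowerSeries σ O, (Finset.univ.image f).card ≤ Fintype.card ι :=
        fun f => Finset.card_image_le.trans (by simp)
      have := (Finset.card_union_le (Finset.univ.image pX) (Finset.univ.image pY)).trans
        (add_le_add (hι pX) (hι pY))
      have := hι pZ
      omega
    omega
  have hXmax : ∀ s, (X s : MvPowerSeries σ O) ∈ IsLocalRing.maximalIdeal (MvPowerSeries σ O) := by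
    intro s
    rw [rtk2b_mem_maximalIdeal_iff, constantCoeff_X]
    exact Ideal.zero_mem _
  have hTmax : ∀ f ∈ T, f ∈ IsLocalRing.maximalIdeal (MvPowerSeries σ O) := by
    intro f hf
    simp only [T, Finset.mem_insert, Finset.mem_union, Finset.mem_image, Finset.mem_univ,
      true_and] at hf
    rcases hf with rfl | ((⟨i, rfl⟩ | ⟨i, rfl⟩) | ⟨i, rfl⟩) | ⟨t, rfl⟩
    · rw [rtk2b_mem_maximalIdeal_iff, constantCoeff_C, hlam]
      exact Ideal.mem_span_singleton_self _
    · exact Ideal.add_mem _ (hXmax _) (hXmax _)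
    · exact Ideal.add_mem _ (hXmax _) (hXmax _)
    · exact Ideal.sub_mem _ (hXmax _) (hXmax _)
    · exact hXmax _
  -- the images of the parameters in the quotient
  let Tq : Finset (MvPowerSeries σ O ⧸ I) := T.image (Ideal.Quotient.mk I)
  have hTq : (Tq : Set (MvPowerSeries σ O ⧸ I)) ⊆ Ring.jacobson (MvPowerSeries σ O ⧸ I) := by
    intro y hy
    simp only [Tq, Finset.coe_image, Set.mem_image, Finset.mem_coe] at hy
    obtain ⟨f, hf, rfl⟩ := hy
    exact rtk2b_mem_jacobson I f (hTmax f hf)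
  have hdim := ringKrullDim_le_ringKrullDim_quotient_add_card Tq hTq
  -- the quotient by the parameters has dimension `≤ 0`
  have h0 : ringKrullDim ((MvPowerSeries σ O ⧸ I) ⧸ Ideal.span (Tq : Set (MvPowerSeries σ O ⧸ I)))
      ≤ 0 := by
    have : Ring.KrullDimLE 0
        ((MvPowerSeries σ O ⧸ I) ⧸ Ideal.span (Tq : Set (MvPowerSeries σ O ⧸ I))) := by
      rw [Ring.krullDimLE_zero_iff]
      intro 𝔮 h𝔮
      let π : MvPowerSeries σ O →+*
          (MvPowerSeries σ O ⧸ I) ⧸ Ideal.span (Tq : Set (MvPowerSeries σ O ⧸ I)) :=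
        (Ideal.Quotient.mk _).comp (Ideal.Quotient.mk I)
      have hπ : Surjective π :=
        Ideal.Quotient.mk_surjective.comp Ideal.Quotient.mk_surjective
      have hπI : ∀ f ∈ I, π f = 0 := by
        intro f hf
        show Ideal.Quotient.mk _ (Ideal.Quotient.mk I f) = 0
        rw [Ideal.Quotient.eq_zero_iff_mem.mpr hf, map_zero]
      have hπT : ∀ f ∈ T, π f = 0 := by
        intro f hf
        show Ideal.Quotient.mk _ (Ideal.Quotient.mk I f) = 0
        rw [Ideal.Quotient.eq_zero_iff_mem]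
        exact Ideal.subset_span (Finset.mem_coe.mpr (Finset.mem_image_of_mem _ hf))
      have h𝔭 : (𝔮.comap π).IsPrime := Ideal.comap_isPrime π 𝔮
      have hmem : ∀ f, π f = 0 → f ∈ 𝔮.comap π := by
        intro f hf
        rw [Ideal.mem_comap, hf]
        exact Ideal.zero_mem _
      have hI𝔭 : ∀ f ∈ I, f ∈ 𝔮.comap π := fun f hf => hmem f (hπI f hf)
      have hT𝔭 : ∀ f ∈ T, f ∈ 𝔮.comap π := fun f hf => hmem f (hπT f hf)
      have hlam𝔭 : (C lam : MvPowerSeries σ O) ∈ 𝔮.comap π :=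
        hT𝔭 _ (Finset.mem_insert_self _ _)
      have hC𝔭 : ∀ c ∈ IsLocalRing.maximalIdeal O, (C c : MvPowerSeries σ O) ∈ 𝔮.comap π := by
        intro c hc
        rw [hlam, Ideal.mem_span_singleton] at hc
        obtain ⟨u, rfl⟩ := hc
        rw [map_mul]
        exact Ideal.mul_mem_right _ _ hlam𝔭
      have h2𝔭 : (2 : MvPowerSeries σ O) ∉ 𝔮.comap π := by
        intro h
        apply h𝔭.ne_top
        apply Ideal.eq_top_of_isUnit_mem _ h
        have : (2 : MvPowerSeries σ O) = C (2 : O) := by rw [map_ofNat]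
        rw [this]
        exact h2.map _
      have hcore : ∀ i, (X (va i) : MvPowerSeries σ O) ∈ 𝔮.comap π ∧
          (X (vb i) : MvPowerSeries σ O) ∈ 𝔮.comap π ∧
          (X (vc i) : MvPowerSeries σ O) ∈ 𝔮.comap π ∧
          (X (vX i) : MvPowerSeries σ O) ∈ 𝔮.comap π ∧
          (X (vY i) : MvPowerSeries σ O) ∈ 𝔮.comap π ∧
          (X (vZ i) : MvPowerSeries σ O) ∈ 𝔮.comap π := by
        intro i
        refine rtk2b_prime_core (𝔮.comap π) h2𝔭 _ _ _ _ _ _ (C (δ i)) (hC𝔭 _ (hδ i))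
          (hI𝔭 _ (h1 i)) (hI𝔭 _ (hm1 i)) (hI𝔭 _ (hm2 i)) (hI𝔭 _ (hm3 i)) ?_ ?_ ?_
        · exact hT𝔭 _ (by
            simp only [T, Finset.mem_insert, Finset.mem_union, Finset.mem_image,
              Finset.mem_univ, true_and]
            exact Or.inr (Or.inl (Or.inl (Or.inl ⟨i, rfl⟩))))
        · exact hT𝔭 _ (by
            simp only [T, Finset.mem_insert, Finset.mem_union, Finset.mem_image,
              Finset.mem_univ, true_and]
            exact Or.inr (Or.inl (Or.inl (Or.inr ⟨i, rfl⟩))))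
        · exact hT𝔭 _ (by
            simp only [T, Finset.mem_insert, Finset.mem_union, Finset.mem_image,
              Finset.mem_univ, true_and]
            exact Or.inr (Or.inl (Or.inr ⟨i, rfl⟩)))
      have hX𝔭 : ∀ s, (X s : MvPowerSeries σ O) ∈ 𝔮.comap π := by
        intro s
        rcases hcover s with ⟨i, hi⟩ | ⟨t, rfl⟩
        · obtain ⟨ha, hb, hc, hX, hY, hZ⟩ := hcore i
          rcases hi with rfl | rfl | rfl | rfl | rfl | rfl
          · exact ha
          · exact hb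
          · exact hc
          · exact hX
          · exact hY
          · exact hZ
        · exact hT𝔭 _ (by
            simp only [T, Finset.mem_insert, Finset.mem_union, Finset.mem_image,
              Finset.mem_univ, true_and]
            exact Or.inr (Or.inr ⟨t, rfl⟩))
      have hle := rtk2b_maximalIdeal_le (𝔮.comap π) hX𝔭 hC𝔭
      have heq : IsLocalRing.maximalIdeal (MvPowerSeries σ O) = 𝔮.comap π :=
        (IsLocalRing.maximalIdeal.isMaximal _).eq_of_le h𝔭.ne_top hle
      have hmax : (𝔮.comap π).IsMaximal := heq ▸ IsLocalRing.maximalIdeal.isMaximal _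
      have hmap : (𝔮.comap π).map π = 𝔮 := Ideal.map_comap_of_surjective π hπ 𝔮
      rcases Ideal.map_eq_top_or_isMaximal_of_surjective π hπ hmax with h | h
      · rw [hmap] at h
        exact absurd h h𝔮.ne_top
      · rwa [hmap] at h
    exact Ring.krullDimLE_iff.mp this
  have hcard : Tq.card ≤ 1 + 3 * Fintype.card ι + Fintype.card τ :=
    Finset.card_image_le.trans hTcard
  calc ringKrullDim (MvPowerSeries σ O ⧸ I)
      ≤ ringKrullDim ((MvPowerSeries σ O ⧸ I) ⧸
          Ideal.span (Tq : Set (MvPowerSeries σ O ⧸ I))) + Tq.card := hdim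
    _ ≤ 0 + ((1 + 3 * Fintype.card ι + Fintype.card τ : ℕ) : WithBot ℕ∞) := by
        refine add_le_add h0 ?_
        exact_mod_cast hcard
    _ = _ := zero_add _

end Dim

end Fermat.Agent.RT.K2b
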