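import Fermat.Agent.RT.K2.Defs
import Fermat.Agent.RT.K2b.Dim
import Fermat.Agent.RT.K4.PowerSeriesDim

/-!
# K-machine, piece K2-b: `dim R^χ_∞ ≤ dim S_∞`

For the type-`χ` ring `Rtk2Rchi τ δ = O⟦a_i, b_i, c_i, X_i, Y_i, Z_i, x_t⟧ ⧸ rtk2Ichi τ δ` of
`RT/K2/Defs.lean`:

* `rtk2b_dim_quot_le`  : `dim P ⧸ I ≤ 1 + 3|ι| + |τ|` for every ideal `I ≥ rtk2Ichi τ δ`;
* `rtk2b_dim_Rchi`     : `dim Rtk2Rchi τ δ ≤ 1 + 3|ι| + |τ|`;
* `rtk2b_dim_Rchi_le_powerSeries` : for a discrete valuation ring `O` and `3|ι| + |τ| ≤ m`,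
  `dim Rtk2Rchi τ δ ≤ dim O⟦w₁, …, w_m⟧` — the hypothesis `hRS` of
  `Fermat.Agent.RT.K4.rtk4_out_T0_of_dim` / `rtk4_out_matrix_of_dim`.

Valid for every odd residue characteristic (`2 ∈ O^×`), `δ_i ∈ 𝔪_O`.
-/

set_option autoImplicit false

namespace Fermat.Agent.RT.K2b

open Function MvPowerSeries Fermat.Agent.RT.K2

theorem rtk2b_genChi_mem {O : Type*} [CommRing O] {ι τ : Type*} (δ : ι → O) (i : ι)
    (k : Fin 4) : rtk2genChi (τ := τ) δ (i, k) ∈ rtk2Ichi τ δ :=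
  Ideal.subset_span ⟨(i, k), rfl⟩

section

variable {O : Type*} [CommRing O] [IsLocalRing O] [IsNoetherianRing O]
  {ι τ : Type*} [Fintype ι] [Fintype τ]

/-- `dim P ⧸ I ≤ 1 + 3|ι| + |τ|` for every ideal `I` containing the type-`χ` relations. -/
theorem rtk2b_dim_quot_le (lam : O) (hlam : IsLocalRing.maximalIdeal O = Ideal.span {lam})
    (h2 : IsUnit (2 : O)) (δ : ι → O) (hδ : ∀ i, δ i ∈ IsLocalRing.maximalIdeal O)
    (I : Ideal (Rtk2P O ι τ)) (hI : rtk2Ichi τ δ ≤ I) :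
    ringKrullDim (Rtk2P O ι τ ⧸ I) ≤ ((1 + 3 * Fintype.card ι + Fintype.card τ : ℕ) :
      WithBot ℕ∞) := by
  refine rtk2b_dim_le lam hlam h2 (fun i => rtk2ix i 0) (fun i => rtk2ix i 1)
    (fun i => rtk2ix i 2) (fun i => rtk2ix i 3) (fun i => rtk2ix i 4) (fun i => rtk2ix i 5)
    rtk2jx ?_ δ hδ I ?_ ?_ ?_ ?_
  · rintro (⟨i, k⟩ | t)
    · left
      refine ⟨i, ?_⟩
      fin_cases k
      · exact Or.inl rfl
      · exact Or.inr (Or.inl rfl)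
      · exact Or.inr (Or.inr (Or.inl rfl))
      · exact Or.inr (Or.inr (Or.inr (Or.inl rfl)))
      · exact Or.inr (Or.inr (Or.inr (Or.inr (Or.inl rfl))))
      · exact Or.inr (Or.inr (Or.inr (Or.inr (Or.inr rfl))))
    · right
      exact ⟨t, rfl⟩
  · intro i
    have := hI (rtk2b_genChi_mem (τ := τ) δ i 0)
    rw [← map_pow]
    exact this
  · intro i
    exact hI (rtk2b_genChi_mem (τ := τ) δ i 1)
  · intro i
    exact hI (rtk2b_genChi_mem (τ := τ) δ i 2)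
  · intro i
    exact hI (rtk2b_genChi_mem (τ := τ) δ i 3)

/-- **K2-b.**  `dim R^χ_∞ ≤ 1 + 3|ι| + |τ|`. -/
theorem rtk2b_dim_Rchi (lam : O) (hlam : IsLocalRing.maximalIdeal O = Ideal.span {lam})
    (h2 : IsUnit (2 : O)) (δ : ι → O) (hδ : ∀ i, δ i ∈ IsLocalRing.maximalIdeal O) :
    ringKrullDim (Rtk2Rchi τ δ) ≤ ((1 + 3 * Fintype.card ι + Fintype.card τ : ℕ) :
      WithBot ℕ∞) :=
  rtk2b_dim_quot_le lam hlam h2 δ hδ _ le_rfl

end

section DVR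

variable {O : Type*} [CommRing O] [IsDomain O] [IsDiscreteValuationRing O]
  {ι τ : Type*} [Fintype ι] [Fintype τ]

/-- `dim O⟦w₁, …, w_m⟧ = 1 + m` for a discrete valuation ring `O`. -/
theorem rtk2b_dim_powerSeries_dvr (m : ℕ) :
    ringKrullDim (MvPowerSeries (Fin m) O) = ((1 + m : ℕ) : WithBot ℕ∞) := by
  rw [Fermat.Agent.RT.K4.rtk4_dim_mvPowerSeries, IsDiscreteValuationRing.ringKrullDim_eq_one]
  push_cast
  rfl

/-- **K2-b, the form consumed by K4.**  `dim R^χ_∞ ≤ dim O⟦w₁, …, w_m⟧` when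
`3|ι| + |τ| ≤ m`. -/
theorem rtk2b_dim_Rchi_le_powerSeries (lam : O)
    (hlam : IsLocalRing.maximalIdeal O = Ideal.span {lam})
    (h2 : IsUnit (2 : O)) (δ : ι → O) (hδ : ∀ i, δ i ∈ IsLocalRing.maximalIdeal O)
    (m : ℕ) (hm : 3 * Fintype.card ι + Fintype.card τ ≤ m) :
    ringKrullDim (Rtk2Rchi τ δ) ≤ ringKrullDim (MvPowerSeries (Fin m) O) := by
  rw [rtk2b_dim_powerSeries_dvr]
  refine (rtk2b_dim_Rchi lam hlam h2 δ hδ).trans ?_
  have : 1 + 3 * Fintype.card ι + Fintype.card τ ≤ 1 + m := by omega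
  exact_mod_cast this

end DVR

end Fermat.Agent.RT.K2b
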