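import Mathlib

/-!
# K-machine, piece K2-b: the maximal ideal of a power series ring in finitely many variables

* `rtk2b_mem_span_X` : a power series in finitely many variables with constant coefficient `0`
  lies in the ideal generated by the variables.
* `rtk2b_maximalIdeal_le` : an ideal of `O⟦σ⟧` (`O` local, `σ` finite) containing the variables
  and the constants of `𝔪_O` contains the maximal ideal.
* `rtk2b_mem_jacobson` : the image of the maximal ideal of `O⟦σ⟧` in any quotient lies in the
  Jacobson radical.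
-/

set_option autoImplicit false
set_option linter.style.haveILetI false

namespace Fermat.Agent.RT.K2b

open Function

section Gen

variable {σ R : Type*} [CommRing R]

theorem rtk2b_mem_span_X [Finite σ] (f : MvPowerSeries σ R)
    (h0 : MvPowerSeries.constantCoeff f = 0) :
    f ∈ Ideal.span (Set.range (MvPowerSeries.X : σ → MvPowerSeries σ R)) := by
  classical
  haveI : Fintype σ := Fintype.ofFinite σ
  -- the variable picked for the monomial `ν`
  let pk : (σ →₀ ℕ) → σ → Prop := fun ν s => ∃ h : ν.support.Nonempty, h.choose = s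
  let hpart : σ → MvPowerSeries σ R := fun s ν => if pk ν s then MvPowerSeries.coeff ν f else 0
  have hcoeff : ∀ s ν, MvPowerSeries.coeff ν (hpart s) =
      if pk ν s then MvPowerSeries.coeff ν f else 0 := fun s ν => rfl
  have hsum : f = ∑ s, hpart s := by
    ext ν
    rw [map_sum]
    simp only [hcoeff]
    by_cases hν : ν.support.Nonempty
    · have hpk : ∀ s, pk ν s ↔ hν.choose = s := by
        intro s
        constructor
        · rintro ⟨h, rfl⟩
          rfl
        · intro h
          exact ⟨hν, h⟩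
      simp only [hpk]
      rw [Finset.sum_ite_eq]
      simp
    · have hpk : ∀ s, ¬ pk ν s := by
        rintro s ⟨h, -⟩
        exact hν h
      simp only [hpk, if_false, Finset.sum_const_zero]
      have : ν = 0 := by
        rw [Finset.not_nonempty_iff_eq_empty, Finsupp.support_eq_empty] at hν
        exact hν
      rw [this, MvPowerSeries.coeff_zero_eq_constantCoeff_apply, h0]
  rw [hsum]
  refine Ideal.sum_mem _ fun s _ => ?_
  have hdvd : (MvPowerSeries.X s : MvPowerSeries σ R) ∣ hpart s := by
    rw [MvPowerSeries.X_dvd_iff]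
    intro m hm
    rw [hcoeff, if_neg]
    rintro ⟨h, hs⟩
    have := h.choose_spec
    rw [hs, Finsupp.mem_support_iff] at this
    exact this hm
  obtain ⟨g, hg⟩ := hdvd
  rw [hg]
  exact Ideal.mul_mem_right _ _ (Ideal.subset_span ⟨s, rfl⟩)

end Gen

section Local

variable {σ O : Type*} [CommRing O] [IsLocalRing O]

theorem rtk2b_mem_maximalIdeal_iff (f : MvPowerSeries σ O) :
    f ∈ IsLocalRing.maximalIdeal (MvPowerSeries σ O) ↔
      MvPowerSeries.constantCoeff f ∈ IsLocalRing.maximalIdeal O := by
  rw [IsLocalRing.mem_maximalIdeal, IsLocalRing.mem_maximalIdeal, mem_nonunits_iff,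
    mem_nonunits_iff, MvPowerSeries.isUnit_iff_constantCoeff]

theorem rtk2b_maximalIdeal_le [Finite σ] (𝔭 : Ideal (MvPowerSeries σ O))
    (hX : ∀ s, (MvPowerSeries.X s : MvPowerSeries σ O) ∈ 𝔭)
    (hC : ∀ c ∈ IsLocalRing.maximalIdeal O, (MvPowerSeries.C c : MvPowerSeries σ O) ∈ 𝔭) :
    IsLocalRing.maximalIdeal (MvPowerSeries σ O) ≤ 𝔭 := by
  intro f hf
  rw [rtk2b_mem_maximalIdeal_iff] at hf
  have h1 : f - MvPowerSeries.C (MvPowerSeries.constantCoeff f) ∈ 𝔭 := by
    have h2 := rtk2b_mem_span_X (f - MvPowerSeries.C (MvPowerSeries.constantCoeff f)) (by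
      rw [map_sub, MvPowerSeries.constantCoeff_C, sub_self])
    refine (Ideal.span_le.mpr ?_) h2
    rintro _ ⟨s, rfl⟩
    exact hX s
  have := 𝔭.add_mem h1 (hC _ hf)
  rwa [sub_add_cancel] at this

/-- The image of the maximal ideal of `O⟦σ⟧` in any quotient lies in the Jacobson radical. -/
theorem rtk2b_mem_jacobson (I : Ideal (MvPowerSeries σ O)) (f : MvPowerSeries σ O)
    (hf : f ∈ IsLocalRing.maximalIdeal (MvPowerSeries σ O)) :
    Ideal.Quotient.mk I f ∈ Ring.jacobson (MvPowerSeries σ O ⧸ I) := by
  rw [← Ideal.jacobson_bot, Ideal.mem_jacobson_bot]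
  intro y
  obtain ⟨g, rfl⟩ := Ideal.Quotient.mk_surjective y
  rw [← map_mul, ← map_one (Ideal.Quotient.mk I), ← map_add]
  refine IsUnit.map _ ?_
  have h1 : f * g ∈ IsLocalRing.maximalIdeal (MvPowerSeries σ O) := Ideal.mul_mem_right _ _ hf
  by_contra hu
  have h2 : f * g + 1 ∈ IsLocalRing.maximalIdeal (MvPowerSeries σ O) :=
    (IsLocalRing.mem_maximalIdeal _).mpr hu
  have h3 : (1 : MvPowerSeries σ O) ∈ IsLocalRing.maximalIdeal (MvPowerSeries σ O) := by
    have := Ideal.sub_mem _ h2 h1
    rwa [add_sub_cancel_left] at this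
  exact (Ideal.ne_top_iff_one _).mp (IsLocalRing.maximalIdeal.isMaximal _).ne_top h3

end Local

end Fermat.Agent.RT.K2b
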